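import Fermat.Agent.S13.Unif.ODE

/-!
# PROJECT G (S13), complex uniformisation, slice (A4)

`L : PeriodPair`, `℘ = L.weierstrassP`, `℘' = L.derivWeierstrassP` (Mathlib).

* `eventually_eq_zero_of_deriv_deriv_eq_mul`: an analytic solution of `h'' = a h` with
  `h z₀ = h' z₀ = 0` vanishes near `z₀`;
* (A4) `sub_mem_lattice_of_eq`: `(℘, ℘')` is injective modulo `Λ`;
* `weierstrassP_eq_iff`: `℘ u = ℘ w ↔ u - w ∈ Λ ∨ u + w ∈ Λ`;
* `derivWeierstrassP_eq_zero_iff`: `℘' z = 0 ↔ 2 z ∈ Λ`.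
-/

set_option autoImplicit false

noncomputable section

namespace Fermat.Agent.S13.Unif.Injective

open Filter Topology Classical
open Fermat.Agent.S13.Unif.Bijection Fermat.Agent.S13.Unif.ODE

/-- an analytic solution of `h'' = a h` with `h z₀ = h' z₀ = 0` vanishes near `z₀` -/
theorem eventually_eq_zero_of_deriv_deriv_eq_mul {h a : ℂ → ℂ} {z₀ : ℂ}
    (hh : AnalyticAt ℂ h z₀) (ha : AnalyticAt ℂ a z₀) (h0 : h z₀ = 0) (h1 : deriv h z₀ = 0)
    (h2 : ∀ᶠ z in 𝓝 z₀, deriv (deriv h) z = a z * h z) : ∀ᶠ z in 𝓝 z₀, h z = 0 := by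
  rw [← analyticOrderAt_eq_top]
  have e1 : analyticOrderAt (deriv h) z₀ + 1 = analyticOrderAt h z₀ := by
    simpa [h0] using hh.analyticOrderAt_deriv_add_one
  have e2 : analyticOrderAt (deriv (deriv h)) z₀ + 1 = analyticOrderAt (deriv h) z₀ := by
    simpa [h1] using hh.deriv.analyticOrderAt_deriv_add_one
  have e3 : analyticOrderAt (deriv (deriv h)) z₀ = analyticOrderAt a z₀ + analyticOrderAt h z₀ := by
    rw [analyticOrderAt_congr h2]
    exact analyticOrderAt_mul ha hh
  by_contra htop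
  obtain ⟨n, hn⟩ := ENat.ne_top_iff_exists.mp htop
  rw [← e2, e3, ← hn] at e1
  rcases eq_or_ne (analyticOrderAt a z₀) ⊤ with hA | hA
  · rw [hA] at e1
    simp at e1
  · obtain ⟨m, hm⟩ := ENat.ne_top_iff_exists.mp hA
    rw [← hm] at e1
    have e4 : m + n + 1 + 1 = n := by exact_mod_cast e1
    omega

variable (L : PeriodPair)

local notation "℘" => L.weierstrassP
local notation "℘'" => L.derivWeierstrassP

/-- the common domain of `℘ (u + ·)` and `℘ (w + ·)` -/
def dom (u w : ℂ) : Set ℂ := {z | u + z ∉ L.lattice ∧ w + z ∉ L.lattice}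

theorem isOpen_dom (u w : ℂ) : IsOpen (dom L u w) := by
  have h1 : IsOpen {z : ℂ | u + z ∉ L.lattice} :=
    (isOpen_compl_lattice L).preimage (continuous_const.add continuous_id)
  have h2 : IsOpen {z : ℂ | w + z ∉ L.lattice} :=
    (isOpen_compl_lattice L).preimage (continuous_const.add continuous_id)
  exact h1.inter h2

theorem countable_compl_dom (u w : ℂ) : (dom L u w)ᶜ.Countable := by
  have h1 : (dom L u w)ᶜ ⊆ (fun l => l - u) '' (L.lattice : Set ℂ) ∪
      (fun l => l - w) '' (L.lattice : Set ℂ) := by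
    intro z hz
    simp only [dom, Set.mem_compl_iff, Set.mem_ofPred_eq, not_and_or, not_not] at hz
    rcases hz with hz | hz
    · exact Or.inl ⟨u + z, hz, by ring⟩
    · exact Or.inr ⟨w + z, hz, by ring⟩
  exact (((countable_lattice L).image _).union ((countable_lattice L).image _)).mono h1

theorem isPreconnected_dom (u w : ℂ) : IsPreconnected (dom L u w) := by
  have h := isPreconnected_compl_of_countable (countable_compl_dom L u w)
  rwa [compl_compl] at h

theorem analyticAt_weierstrassP_add (u : ℂ) {z : ℂ} (hz : u + z ∉ L.lattice) :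
    AnalyticAt ℂ (fun t => ℘ (u + t)) z := by
  have h1 : AnalyticAt ℂ ℘ (u + z) := L.analyticOnNhd_weierstrassP (u + z) hz
  have h2 : AnalyticAt ℂ (fun t : ℂ => u + t) z := by fun_prop
  exact h1.comp_of_eq h2 rfl

theorem analyticAt_derivWeierstrassP_add (u : ℂ) {z : ℂ} (hz : u + z ∉ L.lattice) :
    AnalyticAt ℂ (fun t => ℘' (u + t)) z := by
  have h1 : AnalyticAt ℂ ℘' (u + z) := L.analyticOnNhd_derivWeierstrassP (u + z) hz
  have h2 : AnalyticAt ℂ (fun t : ℂ => u + t) z := by fun_prop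
  exact h1.comp_of_eq h2 rfl

theorem hasDerivAt_weierstrassP_add (u : ℂ) {z : ℂ} (hz : u + z ∉ L.lattice) :
    HasDerivAt (fun t => ℘ (u + t)) (℘' (u + z)) z :=
  (hasDerivAt_weierstrassP L hz).comp_const_add u z

theorem hasDerivAt_derivWeierstrassP_add (u : ℂ) {z : ℂ} (hz : u + z ∉ L.lattice) :
    HasDerivAt (fun t => ℘' (u + t)) (6 * ℘ (u + z) ^ 2 - L.g₂ / 2) z :=
  (hasDerivAt_derivWeierstrassP L hz).comp_const_add u z

/-- local form of (A4) -/
theorem eventually_weierstrassP_add_eq {u w : ℂ} (hu : u ∉ L.lattice) (hw : w ∉ L.lattice)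
    (h : ℘ u = ℘ w) (h' : ℘' u = ℘' w) : ∀ᶠ z in 𝓝 (0 : ℂ), ℘ (u + z) = ℘ (w + z) := by
  have h0 : (0 : ℂ) ∈ dom L u w := by simpa [dom] using And.intro hu hw
  have hev : ∀ᶠ z in 𝓝 (0 : ℂ), z ∈ dom L u w := (isOpen_dom L u w).mem_nhds h0
  -- the difference and its first derivative
  have hd1 : ∀ z ∈ dom L u w,
      HasDerivAt (fun t => ℘ (u + t) - ℘ (w + t)) (℘' (u + z) - ℘' (w + z)) z := fun z hz =>
    (hasDerivAt_weierstrassP_add L u hz.1).sub (hasDerivAt_weierstrassP_add L w hz.2)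
  have hd2 : ∀ z ∈ dom L u w,
      HasDerivAt (fun t => ℘' (u + t) - ℘' (w + t))
        ((6 * ℘ (u + z) ^ 2 - L.g₂ / 2) - (6 * ℘ (w + z) ^ 2 - L.g₂ / 2)) z := fun z hz =>
    (hasDerivAt_derivWeierstrassP_add L u hz.1).sub (hasDerivAt_derivWeierstrassP_add L w hz.2)
  have hderiv : ∀ z ∈ dom L u w, deriv (fun t => ℘ (u + t) - ℘ (w + t)) =ᶠ[𝓝 z]
      fun t => ℘' (u + t) - ℘' (w + t) := by
    intro z hz
    filter_upwards [(isOpen_dom L u w).mem_nhds hz] with t ht using (hd1 t ht).deriv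
  have key := eventually_eq_zero_of_deriv_deriv_eq_mul
    (h := fun t => ℘ (u + t) - ℘ (w + t)) (a := fun t => 6 * (℘ (u + t) + ℘ (w + t))) (z₀ := 0)
    ((analyticAt_weierstrassP_add L u h0.1).sub (analyticAt_weierstrassP_add L w h0.2))
    (by
      have a1 := analyticAt_weierstrassP_add L u h0.1
      have a2 := analyticAt_weierstrassP_add L w h0.2
      fun_prop)
    (by simp [h]) (by rw [(hd1 0 h0).deriv]; simp [h'])
    (by
      filter_upwards [hev] with z hz
      rw [(hderiv z hz).deriv_eq, (hd2 z hz).deriv]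
      ring)
  filter_upwards [key] with z hz using sub_eq_zero.mp hz

/-- global form: the two translates agree wherever both are defined -/
theorem weierstrassP_add_eq_of_mem_dom {u w : ℂ} (hu : u ∉ L.lattice) (hw : w ∉ L.lattice)
    (h : ℘ u = ℘ w) (h' : ℘' u = ℘' w) {z : ℂ} (hz : z ∈ dom L u w) :
    ℘ (u + z) = ℘ (w + z) := by
  have h0 : (0 : ℂ) ∈ dom L u w := by simpa [dom] using And.intro hu hw
  have hf : AnalyticOnNhd ℂ (fun t => ℘ (u + t)) (dom L u w) := fun t ht =>
    analyticAt_weierstrassP_add L u ht.1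
  have hg : AnalyticOnNhd ℂ (fun t => ℘ (w + t)) (dom L u w) := fun t ht =>
    analyticAt_weierstrassP_add L w ht.2
  exact hf.eqOn_of_preconnected_of_eventuallyEq hg (isPreconnected_dom L u w) h0
    (eventually_weierstrassP_add_eq L hu hw h h') hz

theorem eventually_notMem_lattice_nhdsNE (l : ℂ) : ∀ᶠ y in 𝓝[≠] l, y ∉ L.lattice := by
  filter_upwards [nhdsWithin_le_nhds (L.compl_lattice_sdiff_singleton_mem_nhds l),
    self_mem_nhdsWithin] with y hy hy0
  exact fun hyl => hy ⟨hyl, hy0⟩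

/-- **(A4)** `z ↦ (℘ z, ℘' z)` is injective modulo the lattice -/
theorem sub_mem_lattice_of_eq {u w : ℂ} (hu : u ∉ L.lattice) (hw : w ∉ L.lattice)
    (h : ℘ u = ℘ w) (h' : ℘' u = ℘' w) : u - w ∈ L.lattice := by
  by_contra hne
  have hwu : w + -u ∉ L.lattice := fun hm => hne (by
    have := L.lattice.neg_mem hm
    rwa [show -(w + -u) = u - w by ring] at this)
  have hmap : Tendsto (fun z => u + z) (𝓝[≠] (-u)) (𝓝[≠] (0 : ℂ)) := by
    refine tendsto_nhdsWithin_of_tendsto_nhds_of_eventually_within _ ?_ ?_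
    · have h1 : Tendsto (fun z => u + z) (𝓝 (-u)) (𝓝 (u + -u)) :=
        (continuous_const.add continuous_id).tendsto _
      rw [add_neg_cancel] at h1
      exact h1.mono_left nhdsWithin_le_nhds
    · filter_upwards [self_mem_nhdsWithin] with z hz
      intro h0
      exact hz (eq_neg_of_add_eq_zero_right h0)
  have ht1 : Tendsto (fun z => ℘ (u + z)) (𝓝[≠] (-u)) (Bornology.cobounded ℂ) :=
    (tendsto_weierstrassP_cobounded L L.lattice.zero_mem).comp hmap
  have ht2 : Tendsto (fun z => ℘ (w + z)) (𝓝[≠] (-u)) (𝓝 (℘ (w + -u))) :=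
    ((analyticAt_weierstrassP_add L w hwu).continuousAt.tendsto).mono_left nhdsWithin_le_nhds
  have hev1 : ∀ᶠ z in 𝓝[≠] (-u), u + z ∉ L.lattice :=
    hmap.eventually (eventually_notMem_lattice_nhdsNE L 0)
  have hev2 : ∀ᶠ z in 𝓝[≠] (-u), w + z ∉ L.lattice := by
    have h1 : ∀ᶠ z in 𝓝 (-u), w + z ∉ L.lattice :=
      ((isOpen_compl_lattice L).preimage (continuous_const.add continuous_id)).mem_nhds hwu
    exact nhdsWithin_le_nhds h1
  have ht3 : Tendsto (fun z => ℘ (w + z)) (𝓝[≠] (-u)) (Bornology.cobounded ℂ) := by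
    refine ht1.congr' ?_
    filter_upwards [hev1, hev2] with z hz1 hz2
    exact weierstrassP_add_eq_of_mem_dom L hu hw h h' ⟨hz1, hz2⟩
  exact ht3.not_tendsto (Metric.disjoint_cobounded_nhds _) ht2

theorem neg_notMem_lattice {z : ℂ} (hz : z ∉ L.lattice) : -z ∉ L.lattice := fun hn =>
  hz (by simpa using L.lattice.neg_mem hn)

/-- `℘ u = ℘ w` iff `u ≡ ± w` modulo the lattice -/
theorem weierstrassP_eq_iff {u w : ℂ} (hu : u ∉ L.lattice) (hw : w ∉ L.lattice) :
    ℘ u = ℘ w ↔ u - w ∈ L.lattice ∨ u + w ∈ L.lattice := by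
  constructor
  · intro h
    have h1 := L.derivWeierstrassP_sq u hu
    have h2 := L.derivWeierstrassP_sq w hw
    rw [h, ← h2] at h1
    rcases sq_eq_sq_iff_eq_or_eq_neg.mp h1 with h3 | h3
    · exact Or.inl (sub_mem_lattice_of_eq L hu hw h h3)
    · right
      have h4 := sub_mem_lattice_of_eq L hu (neg_notMem_lattice L hw)
        (by rw [L.weierstrassP_neg, h]) (by rw [L.derivWeierstrassP_neg, h3])
      rwa [sub_neg_eq_add] at h4
  · rintro (h | h)
    · have h1 := L.weierstrassP_add_coe w ⟨u - w, h⟩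
      rw [← h1]
      congr 1
      simp
    · have h1 := L.weierstrassP_add_coe (-w) ⟨u + w, h⟩
      rw [L.weierstrassP_neg] at h1
      rw [← h1]
      congr 1
      simp

/-- the zeros of `℘'` are the half-periods -/
theorem derivWeierstrassP_eq_zero_iff {z : ℂ} (hz : z ∉ L.lattice) :
    ℘' z = 0 ↔ 2 * z ∈ L.lattice := by
  constructor
  · intro h
    have h1 := sub_mem_lattice_of_eq L hz (neg_notMem_lattice L hz)
      (by rw [L.weierstrassP_neg]) (by rw [L.derivWeierstrassP_neg, h, neg_zero])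
    rwa [sub_neg_eq_add, ← two_mul] at h1
  · intro h
    have h1 := L.derivWeierstrassP_add_coe (-z) ⟨2 * z, h⟩
    rw [L.derivWeierstrassP_neg] at h1
    have h2 : -z + (2 * z : ℂ) = z := by ring
    simp only [h2] at h1
    have h3 : (2 : ℂ) * ℘' z = 0 := by linear_combination h1
    simpa using h3

end Fermat.Agent.S13.Unif.Injective
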