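import Fermat.Agent.S13.Unif.Bijection

/-!
# PROJECT G (S13), complex uniformisation, slice (ODE)

`L : PeriodPair`, `℘ = L.weierstrassP`, `℘' = L.derivWeierstrassP` (Mathlib).

* `isPreconnected_compl_of_countable`, `isPreconnected_compl_lattice`: connectedness tools for
  the identity theorem;
* `hasDerivAt_weierstrassP`: `℘' ` is the derivative of `℘` off the lattice;
* `exists_derivWeierstrassP_ne_zero`: `℘'` is not identically zero;
* (ODE) `deriv_derivWeierstrassP`, `hasDerivAt_derivWeierstrassP`: `℘'' = 6 ℘² - g₂/2` off the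
  lattice.

(A4) is in `Fermat/Agent/S13/Unif/Injective.lean`.
-/

set_option autoImplicit false

noncomputable section

namespace Fermat.Agent.S13.Unif.ODE

open Filter Topology Classical
open Fermat.Agent.S13.Unif.Bijection

variable (L : PeriodPair)

local notation "℘" => L.weierstrassP
local notation "℘'" => L.derivWeierstrassP

/-! ### connectedness of complements of countable sets -/

theorem isPreconnected_compl_of_countable {s : Set ℂ} (hs : s.Countable) : IsPreconnected sᶜ :=
  (hs.isConnected_compl_of_one_lt_rank (by simp)).isPreconnected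

theorem countable_lattice : (L.lattice : Set ℂ).Countable :=
  countable_of_Lindelof_of_discrete (X := L.lattice)

theorem isPreconnected_compl_lattice : IsPreconnected (L.lattice : Set ℂ)ᶜ :=
  isPreconnected_compl_of_countable (countable_lattice L)

theorem isOpen_compl_lattice : IsOpen (L.lattice : Set ℂ)ᶜ := L.isClosed_lattice.isOpen_compl

/-! ### first derivative -/

theorem hasDerivAt_weierstrassP {z : ℂ} (hz : z ∉ L.lattice) : HasDerivAt ℘ (℘' z) z := by
  have h := (L.analyticOnNhd_weierstrassP z hz).differentiableAt.hasDerivAt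
  rwa [L.deriv_weierstrassP] at h

/-- `℘'` does not vanish identically on the complement of the lattice -/
theorem exists_derivWeierstrassP_ne_zero : ∃ z, z ∉ L.lattice ∧ ℘' z ≠ 0 := by
  by_contra hcon
  push Not at hcon
  have key : ∀ x : ℂ, 4 * x ^ 3 - L.g₂ * x - L.g₃ = 0 := by
    intro x
    obtain ⟨z, hz, hx⟩ := exists_weierstrassP_eq L x
    have h1 := L.derivWeierstrassP_sq z hz
    rw [hcon z hz, hx] at h1
    rw [← h1]; ring
  have h0 := key 0
  have h1 := key 1
  have h2 := key (-1)
  have h3 := key 2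
  have h4 : (24 : ℂ) = 0 := by linear_combination h3 - h0 - h1 + h2
  norm_num at h4

/-! ### (ODE) -/

/-- the Weierstrass relation, differentiated -/
theorem derivWeierstrassP_mul_deriv_sub {z : ℂ} (hz : z ∉ L.lattice) :
    ℘' z * (deriv ℘' z - (6 * ℘ z ^ 2 - L.g₂ / 2)) = 0 := by
  have hP := hasDerivAt_weierstrassP L hz
  have hP' : HasDerivAt ℘' (deriv ℘' z) z :=
    (L.analyticOnNhd_derivWeierstrassP z hz).differentiableAt.hasDerivAt
  have heq : (fun w => ℘' w ^ 2) =ᶠ[𝓝 z] fun w => 4 * ℘ w ^ 3 - L.g₂ * ℘ w - L.g₃ := by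
    filter_upwards [(isOpen_compl_lattice L).mem_nhds hz] with w hw
      using L.derivWeierstrassP_sq w hw
  have h1 := hP'.pow 2
  have h2 := (((hP.pow 3).const_mul 4).sub (hP.const_mul L.g₂)).sub_const L.g₃
  have h3 := (h1.congr_of_eventuallyEq heq.symm).unique h2
  simp only [Nat.cast_ofNat, Nat.add_one_sub_one, pow_one] at h3
  linear_combination h3 / 2

/-- **(ODE)** `℘'' = 6 ℘² - g₂/2` off the lattice -/
theorem deriv_derivWeierstrassP {z : ℂ} (hz : z ∉ L.lattice) :
    deriv ℘' z = 6 * ℘ z ^ 2 - L.g₂ / 2 := by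
  have hA1 : AnalyticOnNhd ℂ ℘' (L.lattice : Set ℂ)ᶜ := L.analyticOnNhd_derivWeierstrassP
  have hA2 : AnalyticOnNhd ℂ (fun w => deriv ℘' w - (6 * ℘ w ^ 2 - L.g₂ / 2))
      (L.lattice : Set ℂ)ᶜ := by
    intro w hw
    have a := L.analyticOnNhd_weierstrassP w hw
    have b := (L.analyticOnNhd_derivWeierstrassP w hw).deriv
    fun_prop
  rcases hA1.eq_zero_or_eq_zero_of_mul_eq_zero hA2
    (fun w hw => derivWeierstrassP_mul_deriv_sub L hw) (isPreconnected_compl_lattice L) with h | h
  · exfalso
    obtain ⟨w, hw, hne⟩ := exists_derivWeierstrassP_ne_zero L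
    exact hne (h w hw)
  · exact sub_eq_zero.mp (h z hz)

/-- **(ODE)** `℘'' = 6 ℘² - g₂/2` off the lattice -/
theorem hasDerivAt_derivWeierstrassP {z : ℂ} (hz : z ∉ L.lattice) :
    HasDerivAt ℘' (6 * ℘ z ^ 2 - L.g₂ / 2) z := by
  have h := (L.analyticOnNhd_derivWeierstrassP z hz).differentiableAt.hasDerivAt
  rwa [deriv_derivWeierstrassP L hz] at h

end Fermat.Agent.S13.Unif.ODE
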