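import Mathlib

/-!
# PROJECT G (S13), complex uniformisation, slices (A2), (A5)

`L : PeriodPair`, `℘ = L.weierstrassP`, `℘' = L.derivWeierstrassP` (Mathlib).

* (A2) `const_of_periodic`: an entire `Λ`-periodic function is constant (Liouville);
* (A5) `exists_weierstrassP_eq`, `exists_point`: `z ↦ (℘ z, ℘' z)` is onto the affine curve
  `y² = 4x³ - g₂ x - g₃`.

(ODE) and (A4) are in `Fermat/Agent/S13/Unif/Injective.lean`.
-/

set_option autoImplicit false

noncomputable section

namespace Fermat.Agent.S13.Unif.Bijection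

open Filter Topology Classical

variable (L : PeriodPair)

local notation "℘" => L.weierstrassP
local notation "℘'" => L.derivWeierstrassP

/-- **(A2)** an entire `Λ`-periodic function is constant -/
theorem const_of_periodic {f : ℂ → ℂ} (hf : Differentiable ℂ f)
    (hper : ∀ z, ∀ l ∈ L.lattice, f (z + l) = f z) (z w : ℂ) : f z = f w :=
  hf.apply_eq_apply_of_bounded (IsZLattice.isCompact_range_of_periodic L.lattice _
    hf.continuous fun z w hw => hper z w hw).isBounded z w

/-- `℘ z → ∞` at the lattice points -/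
theorem tendsto_weierstrassP_cobounded {l : ℂ} (hl : l ∈ L.lattice) :
    Tendsto ℘ (𝓝[≠] l) (Bornology.cobounded ℂ) :=
  tendsto_cobounded_of_meromorphicOrderAt_neg (by
    rw [L.order_weierstrassP l hl]
    have : ((-2 : ℤ) : WithTop ℤ) < ((0 : ℤ) : WithTop ℤ) := WithTop.coe_lt_coe.mpr (by norm_num)
    simpa using this)

/-- the inverse of `℘ - x₀`, extended by `0` at the lattice points -/
def invSub (x₀ : ℂ) (z : ℂ) : ℂ := if z ∈ L.lattice then 0 else (℘ z - x₀)⁻¹

theorem invSub_add_coe (x₀ z : ℂ) {l : ℂ} (hl : l ∈ L.lattice) :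
    invSub L x₀ (z + l) = invSub L x₀ z := by
  have h1 : z + l ∈ L.lattice ↔ z ∈ L.lattice :=
    L.lattice.toAddSubgroup.add_mem_cancel_right hl
  have h2 : ℘ (z + l) = ℘ z := L.weierstrassP_add_coe z ⟨l, hl⟩
  simp only [invSub, h1, h2]

theorem differentiable_invSub (x₀ : ℂ) (h : ∀ z, z ∉ L.lattice → ℘ z ≠ x₀) :
    Differentiable ℂ (invSub L x₀) := by
  have hoff : ∀ z, z ∉ L.lattice → DifferentiableAt ℂ (invSub L x₀) z := by
    intro z hz
    have h1 : DifferentiableAt ℂ (fun w => (℘ w - x₀)⁻¹) z := by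
      have h2 : DifferentiableAt ℂ ℘ z := (L.analyticOnNhd_weierstrassP z hz).differentiableAt
      exact (h2.sub_const x₀).inv (sub_ne_zero.mpr (h z hz))
    refine h1.congr_of_eventuallyEq ?_
    filter_upwards [L.isClosed_lattice.isOpen_compl.mem_nhds hz] with w hw
    simp only [invSub, if_neg (show w ∉ L.lattice from hw)]
  intro z
  by_cases hz : z ∈ L.lattice
  · refine (Complex.analyticAt_of_differentiable_on_punctured_nhds_of_continuousAt ?_
      ?_).differentiableAt
    · have h1 : ∀ᶠ w in 𝓝[≠] z, w ∈ ((L.lattice : Set ℂ) \ {z})ᶜ :=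
        nhdsWithin_le_nhds (L.compl_lattice_sdiff_singleton_mem_nhds z)
      filter_upwards [h1, self_mem_nhdsWithin] with w hw hwz
      refine hoff w fun hwl => hw ⟨hwl, hwz⟩
    · rw [continuousAt_iff_punctured_nhds]
      have h0 : invSub L x₀ z = 0 := by simp only [invSub, if_pos hz]
      rw [h0]
      have h1 : Tendsto (fun w => (℘ w - x₀)⁻¹) (𝓝[≠] z) (𝓝 0) :=
        tendsto_inv₀_cobounded.comp
          ((tendsto_sub_const_cobounded x₀).comp (tendsto_weierstrassP_cobounded L hz))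
      refine h1.congr' ?_
      have h2 : ∀ᶠ w in 𝓝[≠] z, w ∈ ((L.lattice : Set ℂ) \ {z})ᶜ :=
        nhdsWithin_le_nhds (L.compl_lattice_sdiff_singleton_mem_nhds z)
      filter_upwards [h2, self_mem_nhdsWithin] with w hw hwz
      have hwl : w ∉ L.lattice := fun hwl => hw ⟨hwl, hwz⟩
      simp only [invSub, if_neg hwl]
  · exact hoff z hz

/-- **(A5)** `℘` takes every value -/
theorem exists_weierstrassP_eq (x₀ : ℂ) : ∃ z, z ∉ L.lattice ∧ ℘ z = x₀ := by
  by_contra hcon
  push Not at hcon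
  have hd := differentiable_invSub L x₀ hcon
  have hc := const_of_periodic L hd (fun z l hl => invSub_add_coe L x₀ z hl)
  have hz : L.ω₁ / 2 ∉ L.lattice := L.ω₁_div_two_notMem_lattice
  have h1 := hc (L.ω₁ / 2) 0
  have h0 : invSub L x₀ 0 = 0 := by simp only [invSub, if_pos L.lattice.zero_mem]
  rw [h0] at h1
  simp only [invSub, if_neg hz] at h1
  exact hcon _ hz (sub_eq_zero.mp (inv_eq_zero.mp h1))

/-- **(A5)** `z ↦ (℘ z, ℘' z)` is onto the affine curve `y² = 4x³ - g₂ x - g₃` -/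
theorem exists_point (x₀ y₀ : ℂ) (h : y₀ ^ 2 = 4 * x₀ ^ 3 - L.g₂ * x₀ - L.g₃) :
    ∃ z, z ∉ L.lattice ∧ ℘ z = x₀ ∧ ℘' z = y₀ := by
  obtain ⟨z, hz, hx⟩ := exists_weierstrassP_eq L x₀
  have h1 := L.derivWeierstrassP_sq z hz
  rw [hx, ← h] at h1
  rcases sq_eq_sq_iff_eq_or_eq_neg.mp h1 with h2 | h2
  · exact ⟨z, hz, hx, h2⟩
  · refine ⟨-z, fun hn => hz (by simpa using L.lattice.neg_mem hn), ?_, ?_⟩
    · rw [L.weierstrassP_neg, hx]
    · rw [L.derivWeierstrassP_neg, h2, neg_neg]

end Fermat.Agent.S13.Unif.Bijection
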